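/-
S25 (Jacobian) -- shared algebraic vocabulary.  See notes/S25/S25_route.md.
Author: helper5425.  Definitions only; no sorry.
-/
import Mathlib

set_option autoImplicit false

universe u

namespace Fermat.Agent.S25

open scoped TensorProduct

/-- Algebraic presentation of a smooth proper curve over `k` by two affine charts
`U₁ = Spec A₁` and `U₂ = Spec A₂` with `U₁ ∩ U₂ = Spec A₁₂ = D(f) = D(g)`, where `f` is a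
finite map to `P¹`, `U₁ = f⁻¹(A¹)`, `U₂ = f⁻¹(P¹ ∖ 0)`, `g = 1/f`, and `ε` is a `k`-point
of `U₁`. -/
structure CurveData (k : Type u) [Field k] where
  A₁ : Type u
  A₂ : Type u
  A₁₂ : Type u
  [cr₁ : CommRing A₁]
  [cr₂ : CommRing A₂]
  [cr₁₂ : CommRing A₁₂]
  [alg₁ : Algebra k A₁]
  [alg₂ : Algebra k A₂]
  [alg₁₂ : Algebra k A₁₂]
  r₁ : A₁ →ₐ[k] A₁₂
  r₂ : A₂ →ₐ[k] A₁₂
  f : A₁
  g : A₂
  fg : r₁ f * r₂ g = 1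
  /-- `A₁₂ = A₁[1/f]`. -/
  surj₁ : ∀ y : A₁₂, ∃ (a : A₁) (n : ℕ), y = r₁ a * r₂ g ^ n
  /-- `A₁₂ = A₂[1/g]`. -/
  surj₂ : ∀ y : A₁₂, ∃ (a : A₂) (n : ℕ), y = r₂ a * r₁ f ^ n
  inj₁ : Function.Injective r₁
  inj₂ : Function.Injective r₂
  dom₁ : IsDomain A₁
  dom₂ : IsDomain A₂
  /-- `f : U₁ → A¹` is finite. -/
  fin₁ : Module.Finite (Algebra.adjoin k ({f} : Set A₁)) A₁
  /-- `1/f : U₂ → A¹` is finite. -/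
  fin₂ : Module.Finite (Algebra.adjoin k ({g} : Set A₂)) A₂
  /-- `H⁰(C, O) = k`. -/
  glob : ∀ (a₁ : A₁) (a₂ : A₂), r₁ a₁ = r₂ a₂ → ∃ c : k, a₁ = algebraMap k A₁ c
  /-- Smooth of relative dimension one. -/
  smooth₁ : RingHom.Locally (RingHom.IsStandardSmoothOfRelativeDimension 1) (algebraMap k A₁)
  smooth₂ : RingHom.Locally (RingHom.IsStandardSmoothOfRelativeDimension 1) (algebraMap k A₂)
  /-- The rigidifying point, in `U₁`. -/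
  ε : A₁ →ₐ[k] k

attribute [instance] CurveData.cr₁ CurveData.cr₂ CurveData.cr₁₂ CurveData.alg₁ CurveData.alg₂
  CurveData.alg₁₂

/-- A "two-chart" over a base ring `R`: the coordinate rings of two affine opens `W₁`, `W₂`
of an `R`-scheme and of their intersection `W₁₂ = D(f) ⊆ W₁`, `= D(g) ⊆ W₂`. -/
structure TwoChart (R : Type u) [CommRing R] where
  B₁ : Type u
  B₂ : Type u
  B₁₂ : Type u
  [cr₁ : CommRing B₁]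
  [cr₂ : CommRing B₂]
  [cr₁₂ : CommRing B₁₂]
  [alg₁ : Algebra R B₁]
  [alg₂ : Algebra R B₂]
  [alg₁₂ : Algebra R B₁₂]
  r₁ : B₁ →ₐ[R] B₁₂
  r₂ : B₂ →ₐ[R] B₁₂
  f : B₁
  g : B₂
  fg : r₁ f * r₂ g = 1
  surj₁ : ∀ y : B₁₂, ∃ (a : B₁) (n : ℕ), y = r₁ a * r₂ g ^ n
  surj₂ : ∀ y : B₁₂, ∃ (a : B₂) (n : ℕ), y = r₂ a * r₁ f ^ n
  ker₁ : ∀ a : B₁, r₁ a = 0 → ∃ n : ℕ, f ^ n * a = 0
  ker₂ : ∀ a : B₂, r₂ a = 0 → ∃ n : ℕ, g ^ n * a = 0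

attribute [instance] TwoChart.cr₁ TwoChart.cr₂ TwoChart.cr₁₂ TwoChart.alg₁ TwoChart.alg₂
  TwoChart.alg₁₂

/-- A quasi-coherent module on the glued scheme: modules on the two charts and on the
intersection, with the two restriction maps, both localisations. -/
structure GluedModule {R : Type u} [CommRing R] (𝔹 : TwoChart R) where
  N₁ : Type u
  N₂ : Type u
  N₁₂ : Type u
  [acg₁ : AddCommGroup N₁]
  [acg₂ : AddCommGroup N₂]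
  [acg₁₂ : AddCommGroup N₁₂]
  [modR₁ : Module R N₁]
  [modR₂ : Module R N₂]
  [modR₁₂ : Module R N₁₂]
  [mod₁ : Module 𝔹.B₁ N₁]
  [mod₂ : Module 𝔹.B₂ N₂]
  [mod₁₂ : Module 𝔹.B₁₂ N₁₂]
  [tower₁ : IsScalarTower R 𝔹.B₁ N₁]
  [tower₂ : IsScalarTower R 𝔹.B₂ N₂]
  [tower₁₂ : IsScalarTower R 𝔹.B₁₂ N₁₂]
  ι₁ : N₁ →ₗ[R] N₁₂
  ι₂ : N₂ →ₗ[R] N₁₂
  ι₁_smul : ∀ (b : 𝔹.B₁) (n : N₁), ι₁ (b • n) = 𝔹.r₁ b • ι₁ n
  ι₂_smul : ∀ (b : 𝔹.B₂) (n : N₂), ι₂ (b • n) = 𝔹.r₂ b • ι₂ n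
  /-- `N₁₂ = N₁[1/f]`. -/
  surj₁ : ∀ y : N₁₂, ∃ (n : N₁) (m : ℕ), y = 𝔹.r₂ 𝔹.g ^ m • ι₁ n
  ker₁ : ∀ n : N₁, ι₁ n = 0 → ∃ m : ℕ, 𝔹.f ^ m • n = 0
  /-- `N₁₂ = N₂[1/g]`. -/
  surj₂ : ∀ y : N₁₂, ∃ (n : N₂) (m : ℕ), y = 𝔹.r₁ 𝔹.f ^ m • ι₂ n
  ker₂ : ∀ n : N₂, ι₂ n = 0 → ∃ m : ℕ, 𝔹.g ^ m • n = 0

attribute [instance] GluedModule.acg₁ GluedModule.acg₂ GluedModule.acg₁₂ GluedModule.modR₁
  GluedModule.modR₂ GluedModule.modR₁₂ GluedModule.mod₁ GluedModule.mod₂ GluedModule.mod₁₂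
  GluedModule.tower₁ GluedModule.tower₂ GluedModule.tower₁₂

namespace GluedModule

variable {R : Type u} [CommRing R] {𝔹 : TwoChart R} (N : GluedModule 𝔹)

/-- The Čech differential `N₁ × N₂ → N₁₂`, `(a, b) ↦ ι₁ a - ι₂ b`. -/
def d : (N.N₁ × N.N₂) →ₗ[R] N.N₁₂ :=
  N.ι₁.comp (LinearMap.fst R N.N₁ N.N₂) - N.ι₂.comp (LinearMap.snd R N.N₁ N.N₂)

/-- Global sections. -/
def H0 : Submodule R (N.N₁ × N.N₂) := LinearMap.ker N.d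

/-- First Čech cohomology of the two-chart cover. -/
abbrev H1 : Type u := N.N₁₂ ⧸ LinearMap.range N.d

/-- Isomorphisms of glued modules. -/
structure Iso (N N' : GluedModule 𝔹) where
  e₁ : N.N₁ ≃ₗ[𝔹.B₁] N'.N₁
  e₂ : N.N₂ ≃ₗ[𝔹.B₂] N'.N₂
  e₁₂ : N.N₁₂ ≃ₗ[𝔹.B₁₂] N'.N₁₂
  comm₁ : ∀ n, e₁₂ (N.ι₁ n) = N'.ι₁ (e₁ n)
  comm₂ : ∀ n, e₁₂ (N.ι₂ n) = N'.ι₂ (e₂ n)

/-- A line bundle: both chart modules invertible. -/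
structure IsLineBundle : Prop where
  inv₁ : Module.Invertible 𝔹.B₁ N.N₁
  inv₂ : Module.Invertible 𝔹.B₂ N.N₂

end GluedModule

end Fermat.Agent.S25
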