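/-
S25 (Jacobian) -- FROZEN shared definitions, part 2 (on top of `Core.lean` and helper7630's
`A1/Basic.lean`): the family two-chart `𝒞.chart R`, morphisms of two-charts, base change as a
relation (`IsBC`), Euler characteristic, rigidity, `Deg0`, `IsPic0`.
Author: helper5425.  Definitions only; no sorry.  NEVER edit (ask the project lead).
-/
import Fermat.Agent.S25.Core
import Fermat.Agent.S25.A1.Basic

set_option autoImplicit false

universe u

namespace Fermat.Agent.S25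

open scoped TensorProduct

section chart

variable {k : Type u} [Field k] (𝒞 : CurveData k) (R : Type u) [CommRing R] [Algebra k R]

theorem chart_aux_inj {A A' : Type u} [CommRing A] [CommRing A'] [Algebra k A] [Algebra k A']
    (r : A →ₐ[k] A') (hr : Function.Injective r) :
    Function.Injective (Algebra.TensorProduct.map (AlgHom.id R R) r) := by
  have h := Module.Flat.lTensor_preserves_injective_linearMap (M := R) r.toLinearMap hr
  have e : ∀ x, Algebra.TensorProduct.map (AlgHom.id R R) r x =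
      LinearMap.lTensor R r.toLinearMap x := by
    intro x
    induction x using TensorProduct.induction_on with
    | zero => simp
    | tmul a b => simp
    | add x y hx hy => simp only [map_add, hx, hy]
  intro x y hxy
  apply h
  rw [← e, ← e, hxy]

theorem chart_aux_surj {A A' B : Type u} [CommRing A] [CommRing A'] [CommRing B] [Algebra k A]
    [Algebra k A'] [Algebra k B] (r : A →ₐ[k] A') (r' : B →ₐ[k] A') (f : A) (g : B)
    (fg : r f * r' g = 1) (hs : ∀ y : A', ∃ (a : A) (n : ℕ), y = r a * r' g ^ n) :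
    ∀ y : R ⊗[k] A', ∃ (a : R ⊗[k] A) (n : ℕ),
      y = Algebra.TensorProduct.map (AlgHom.id R R) r a *
        Algebra.TensorProduct.map (AlgHom.id R R) r' (1 ⊗ₜ[k] g) ^ n := by
  have hFG : Algebra.TensorProduct.map (AlgHom.id R R) r (1 ⊗ₜ[k] f) *
      Algebra.TensorProduct.map (AlgHom.id R R) r' (1 ⊗ₜ[k] g) = 1 := by
    rw [Algebra.TensorProduct.map_tmul, Algebra.TensorProduct.map_tmul,
      Algebra.TensorProduct.tmul_mul_tmul, fg]
    simp [Algebra.TensorProduct.one_def]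
  have hpow : ∀ m : ℕ, Algebra.TensorProduct.map (AlgHom.id R R) r ((1 ⊗ₜ[k] f) ^ m) *
      Algebra.TensorProduct.map (AlgHom.id R R) r' (1 ⊗ₜ[k] g) ^ m = 1 := by
    intro m
    rw [map_pow, ← mul_pow, hFG, one_pow]
  intro y
  induction y using TensorProduct.induction_on with
  | zero => exact ⟨0, 0, by simp⟩
  | tmul c y₀ =>
    obtain ⟨a, n, rfl⟩ := hs y₀
    refine ⟨c ⊗ₜ[k] a, n, ?_⟩
    rw [Algebra.TensorProduct.map_tmul, Algebra.TensorProduct.map_tmul, AlgHom.id_apply,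
      AlgHom.id_apply, Algebra.TensorProduct.tmul_pow, one_pow,
      Algebra.TensorProduct.tmul_mul_tmul, mul_one]
  | add x y hx hy =>
    obtain ⟨a, n, rfl⟩ := hx
    obtain ⟨a', n', rfl⟩ := hy
    refine ⟨a * (1 ⊗ₜ[k] f) ^ n' + a' * (1 ⊗ₜ[k] f) ^ n, n + n', ?_⟩
    set F := Algebra.TensorProduct.map (AlgHom.id R R) r with hF
    set G := Algebra.TensorProduct.map (AlgHom.id R R) r' (1 ⊗ₜ[k] g) with hG
    have h1 := hpow n'
    have h2 := hpow n
    rw [map_add, map_mul, map_mul, pow_add]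
    calc F a * G ^ n + F a' * G ^ n'
        = F a * G ^ n * (F ((1 ⊗ₜ[k] f) ^ n') * G ^ n') +
          F a' * G ^ n' * (F ((1 ⊗ₜ[k] f) ^ n) * G ^ n) := by rw [h1, h2, mul_one, mul_one]
      _ = (F a * F ((1 ⊗ₜ[k] f) ^ n') + F a' * F ((1 ⊗ₜ[k] f) ^ n)) * (G ^ n * G ^ n') := by ring

/-- The two-chart of `C ×_k Spec R`: `B_i = R ⊗[k] A_i`. -/
noncomputable def CurveData.chart : TwoChart R where
  B₁ := R ⊗[k] 𝒞.A₁
  B₂ := R ⊗[k] 𝒞.A₂
  B₁₂ := R ⊗[k] 𝒞.A₁₂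
  r₁ := Algebra.TensorProduct.map (AlgHom.id R R) 𝒞.r₁
  r₂ := Algebra.TensorProduct.map (AlgHom.id R R) 𝒞.r₂
  f := 1 ⊗ₜ[k] 𝒞.f
  g := 1 ⊗ₜ[k] 𝒞.g
  fg := by
    rw [Algebra.TensorProduct.map_tmul, Algebra.TensorProduct.map_tmul,
      Algebra.TensorProduct.tmul_mul_tmul, 𝒞.fg]
    simp [Algebra.TensorProduct.one_def]
  surj₁ := chart_aux_surj R 𝒞.r₁ 𝒞.r₂ 𝒞.f 𝒞.g 𝒞.fg 𝒞.surj₁
  surj₂ := chart_aux_surj R 𝒞.r₂ 𝒞.r₁ 𝒞.g 𝒞.f (by rw [mul_comm]; exact 𝒞.fg) 𝒞.surj₂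
  ker₁ := fun a ha => ⟨0, by
    have := chart_aux_inj R 𝒞.r₁ 𝒞.inj₁ (ha.trans (map_zero _).symm)
    simp [this]⟩
  ker₂ := fun a ha => ⟨0, by
    have := chart_aux_inj R 𝒞.r₂ 𝒞.inj₂ (ha.trans (map_zero _).symm)
    simp [this]⟩

end chart

/-- A morphism of two-charts over a ring map `φ : R → R'` (e.g. base change of the family). -/
structure TwoChart.Hom {R R' : Type u} [CommRing R] [CommRing R'] (φ : R →+* R')
    (𝔹 : TwoChart R) (𝔹' : TwoChart R') where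
  ψ₁ : 𝔹.B₁ →+* 𝔹'.B₁
  ψ₂ : 𝔹.B₂ →+* 𝔹'.B₂
  ψ₁₂ : 𝔹.B₁₂ →+* 𝔹'.B₁₂
  comm₁ : ∀ b, ψ₁₂ (𝔹.r₁ b) = 𝔹'.r₁ (ψ₁ b)
  comm₂ : ∀ b, ψ₁₂ (𝔹.r₂ b) = 𝔹'.r₂ (ψ₂ b)
  map_f : ψ₁ 𝔹.f = 𝔹'.f
  map_g : ψ₂ 𝔹.g = 𝔹'.g
  alg₁ : ∀ c : R, ψ₁ (algebraMap R 𝔹.B₁ c) = algebraMap R' 𝔹'.B₁ (φ c)
  alg₂ : ∀ c : R, ψ₂ (algebraMap R 𝔹.B₂ c) = algebraMap R' 𝔹'.B₂ (φ c)
  alg₁₂ : ∀ c : R, ψ₁₂ (algebraMap R 𝔹.B₁₂ c) = algebraMap R' 𝔹'.B₁₂ (φ c)

section chartHom

variable {k : Type u} [Field k] (𝒞 : CurveData k) {R R' : Type u} [CommRing R] [Algebra k R]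
  [CommRing R'] [Algebra k R']

/-- Base change of the family along `φ : R →ₐ[k] R'`. -/
noncomputable def CurveData.chartHom (φ : R →ₐ[k] R') :
    TwoChart.Hom (φ : R →+* R') (𝒞.chart R) (𝒞.chart R') where
  ψ₁ := (Algebra.TensorProduct.map φ (AlgHom.id k 𝒞.A₁)).toRingHom
  ψ₂ := (Algebra.TensorProduct.map φ (AlgHom.id k 𝒞.A₂)).toRingHom
  ψ₁₂ := (Algebra.TensorProduct.map φ (AlgHom.id k 𝒞.A₁₂)).toRingHom
  comm₁ := by
    intro b
    change Algebra.TensorProduct.map φ (AlgHom.id k 𝒞.A₁₂)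
        (Algebra.TensorProduct.map (AlgHom.id R R) 𝒞.r₁ b) =
      Algebra.TensorProduct.map (AlgHom.id R' R') 𝒞.r₁
        (Algebra.TensorProduct.map φ (AlgHom.id k 𝒞.A₁) b)
    induction b using TensorProduct.induction_on with
    | zero => simp only [map_zero]
    | tmul a b => simp only [Algebra.TensorProduct.map_tmul, AlgHom.id_apply]
    | add x y hx hy => simp only [map_add, hx, hy]
  comm₂ := by
    intro b
    change Algebra.TensorProduct.map φ (AlgHom.id k 𝒞.A₁₂)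
        (Algebra.TensorProduct.map (AlgHom.id R R) 𝒞.r₂ b) =
      Algebra.TensorProduct.map (AlgHom.id R' R') 𝒞.r₂
        (Algebra.TensorProduct.map φ (AlgHom.id k 𝒞.A₂) b)
    induction b using TensorProduct.induction_on with
    | zero => simp only [map_zero]
    | tmul a b => simp only [Algebra.TensorProduct.map_tmul, AlgHom.id_apply]
    | add x y hx hy => simp only [map_add, hx, hy]
  map_f := by
    change Algebra.TensorProduct.map φ (AlgHom.id k 𝒞.A₁) (1 ⊗ₜ[k] 𝒞.f) = 1 ⊗ₜ[k] 𝒞.f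
    simp only [Algebra.TensorProduct.map_tmul, AlgHom.id_apply, map_one]
  map_g := by
    change Algebra.TensorProduct.map φ (AlgHom.id k 𝒞.A₂) (1 ⊗ₜ[k] 𝒞.g) = 1 ⊗ₜ[k] 𝒞.g
    simp only [Algebra.TensorProduct.map_tmul, AlgHom.id_apply, map_one]
  alg₁ := by
    intro c
    change Algebra.TensorProduct.map φ (AlgHom.id k 𝒞.A₁) (algebraMap R (R ⊗[k] 𝒞.A₁) c) =
      algebraMap R' (R' ⊗[k] 𝒞.A₁) (φ c)
    simp only [Algebra.TensorProduct.algebraMap_apply, Algebra.algebraMap_self, RingHom.id_apply,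
      Algebra.TensorProduct.map_tmul, map_one]
  alg₂ := by
    intro c
    change Algebra.TensorProduct.map φ (AlgHom.id k 𝒞.A₂) (algebraMap R (R ⊗[k] 𝒞.A₂) c) =
      algebraMap R' (R' ⊗[k] 𝒞.A₂) (φ c)
    simp only [Algebra.TensorProduct.algebraMap_apply, Algebra.algebraMap_self, RingHom.id_apply,
      Algebra.TensorProduct.map_tmul, map_one]
  alg₁₂ := by
    intro c
    change Algebra.TensorProduct.map φ (AlgHom.id k 𝒞.A₁₂) (algebraMap R (R ⊗[k] 𝒞.A₁₂) c) =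
      algebraMap R' (R' ⊗[k] 𝒞.A₁₂) (φ c)
    simp only [Algebra.TensorProduct.algebraMap_apply, Algebra.algebraMap_self, RingHom.id_apply,
      Algebra.TensorProduct.map_tmul, map_one]

end chartHom

namespace GluedModule



/-- Data exhibiting `N'` as the base change of `N` along a morphism of two-charts:
semilinear maps on the three modules, compatible with the restriction maps, each with the
universal property of `B'_i ⊗[B_i] N_i`. -/
structure BaseChangeData {R R' : Type u} [CommRing R] [CommRing R'] {φ : R →+* R'}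
    {𝔹 : TwoChart R} {𝔹' : TwoChart R'} (Ψ : TwoChart.Hom φ 𝔹 𝔹')
    (N : GluedModule 𝔹) (N' : GluedModule 𝔹') where
  j₁ : N.N₁ →+ N'.N₁
  j₂ : N.N₂ →+ N'.N₂
  j₁₂ : N.N₁₂ →+ N'.N₁₂
  j₁_smul : ∀ (b : 𝔹.B₁) (n : N.N₁), j₁ (b • n) = Ψ.ψ₁ b • j₁ n
  j₂_smul : ∀ (b : 𝔹.B₂) (n : N.N₂), j₂ (b • n) = Ψ.ψ₂ b • j₂ n
  j₁₂_smul : ∀ (b : 𝔹.B₁₂) (n : N.N₁₂), j₁₂ (b • n) = Ψ.ψ₁₂ b • j₁₂ n
  comm₁ : ∀ n, j₁₂ (N.ι₁ n) = N'.ι₁ (j₁ n)
  comm₂ : ∀ n, j₁₂ (N.ι₂ n) = N'.ι₂ (j₂ n)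
  univ₁ : ∀ (Q : Type u) [AddCommGroup Q] [Module 𝔹'.B₁ Q] (h : N.N₁ →+ Q),
    (∀ (b : 𝔹.B₁) (n : N.N₁), h (b • n) = Ψ.ψ₁ b • h n) →
      ∃! h' : N'.N₁ →ₗ[𝔹'.B₁] Q, ∀ n, h' (j₁ n) = h n
  univ₂ : ∀ (Q : Type u) [AddCommGroup Q] [Module 𝔹'.B₂ Q] (h : N.N₂ →+ Q),
    (∀ (b : 𝔹.B₂) (n : N.N₂), h (b • n) = Ψ.ψ₂ b • h n) →
      ∃! h' : N'.N₂ →ₗ[𝔹'.B₂] Q, ∀ n, h' (j₂ n) = h n

/-- `N'` is (isomorphic to) the base change of `N`. -/
def IsBC {R R' : Type u} [CommRing R] [CommRing R'] {φ : R →+* R'}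
    {𝔹 : TwoChart R} {𝔹' : TwoChart R'} (Ψ : TwoChart.Hom φ 𝔹 𝔹')
    (N : GluedModule 𝔹) (N' : GluedModule 𝔹') : Prop :=
  Nonempty (BaseChangeData Ψ N N')

/-- Euler characteristic of a glued module over a field (`0` conventions of `finrank` are
harmless: both cohomology groups are finite dimensional for curve charts). -/
noncomputable def chi {K : Type u} [Field K] {𝔹 : TwoChart K} (N : GluedModule 𝔹) : ℤ :=
  (Module.finrank K N.H0 : ℤ) - (Module.finrank K N.H1 : ℤ)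

end GluedModule

section rigid

variable {k : Type u} [Field k] (𝒞 : CurveData k) (R : Type u) [CommRing R] [Algebra k R]

/-- The `R`-point `ε` of the first chart of `C ×_k Spec R`. -/
noncomputable def CurveData.epsR : (𝒞.chart R).B₁ →ₐ[R] R :=
  Algebra.TensorProduct.lift (AlgHom.id R R) ((Algebra.ofId k R).comp 𝒞.ε)
    (fun _ _ => Commute.all _ _)

variable {R}

/-- Rigidified along `ε`: the fibre `R ⊗[B₁, ε] N₁` is free of rank one (stated by the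
universal property of the fibre, with `e` the evaluation map). -/
def Rigid (N : GluedModule (𝒞.chart R)) : Prop :=
  ∃ e : N.N₁ →ₗ[R] R, (∀ (b : (𝒞.chart R).B₁) (n : N.N₁), e (b • n) = 𝒞.epsR R b * e n) ∧
    ∀ (Q : Type u) [AddCommGroup Q] [Module R Q] (h : N.N₁ →ₗ[R] Q),
      (∀ (b : (𝒞.chart R).B₁) (n : N.N₁), h (b • n) = 𝒞.epsR R b • h n) →
        ∃! h' : R →ₗ[R] Q, ∀ n, h' (e n) = h n

/-- Fibrewise of degree zero: at every geometric point the Euler characteristic is that of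
the structure sheaf. -/
def Deg0 (N : GluedModule (𝒞.chart R)) : Prop :=
  ∀ (κ : Type u) [Field κ] [IsAlgClosed κ] [Algebra k κ] (φ : R →ₐ[k] κ)
    (N' : GluedModule (𝒞.chart κ)), GluedModule.IsBC (𝒞.chartHom φ) N N' →
      GluedModule.chi N' = GluedModule.chi (GluedModule.unit (𝒞.chart κ))

/-- The objects classified by the Jacobian, on the algebra side. -/
structure IsPic0 (N : GluedModule (𝒞.chart R)) : Prop where
  lineBundle : N.IsLineBundle
  rigid : Rigid 𝒞 N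
  deg0 : Deg0 𝒞 N

end rigid

end Fermat.Agent.S25
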