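/-
S25 (Jacobian) -- FROZEN interface structures of the algebra side.
See notes/S25/S25_route.md and BOARD.md (origin/helper5425).  Author: helper5425.
Definitions only; no sorry.  NEVER edit (ask the project lead).
-/
import Fermat.Agent.S25.Defs

set_option autoImplicit false

universe u

namespace Fermat.Agent.S25

open scoped TensorProduct

open GluedModule

variable {k : Type u} [Field k]

/-- An atlas of `Pic⁰`: affine charts `Spec (S i)` with universal objects `P i`, open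
chart loci, covering.  (Route: `i = (Δ, B, h)`, `S i = S_B[1/h]`.) -/
structure ChartAtlas (𝒞 : CurveData k) where
  ι : Type u
  S : ι → Type u
  [commRing : ∀ i, CommRing (S i)]
  [algebra : ∀ i, Algebra k (S i)]
  finiteType : ∀ i, Algebra.FiniteType k (S i)
  formallySmooth : ∀ i, Algebra.FormallySmooth k (S i)
  /-- The universal line bundle of the chart. -/
  P : ∀ i, GluedModule (𝒞.chart (S i))
  P_pic0 : ∀ i, IsPic0 𝒞 (P i)
  /-- "`L` lies in the chart `i`". -/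
  chart : ι → ∀ (R : Type u) [CommRing R] [Algebra k R], GluedModule (𝒞.chart R) → Prop
  chart_P : ∀ i, chart i (S i) (P i)
  chart_bc : ∀ (i : ι) {R R' : Type u} [CommRing R] [Algebra k R] [CommRing R'] [Algebra k R']
    (φ : R →ₐ[k] R') (L : GluedModule (𝒞.chart R)) (L' : GluedModule (𝒞.chart R')),
    chart i R L → IsBC (𝒞.chartHom φ) L L' → chart i R' L'
  /-- The chart represents the chart functor on affine schemes. -/
  univ : ∀ (i : ι) {R : Type u} [CommRing R] [Algebra k R] (L : GluedModule (𝒞.chart R)),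
    IsPic0 𝒞 L → chart i R L → ∃! φ : S i →ₐ[k] R, IsBC (𝒞.chartHom φ) (P i) L
  /-- The locus of `Spec R` where `L` lies in the chart `i`. -/
  locus : ι → ∀ (R : Type u) [CommRing R] [Algebra k R], GluedModule (𝒞.chart R) →
    Set (PrimeSpectrum R)
  locus_open : ∀ (i : ι) {R : Type u} [CommRing R] [Algebra k R] (L : GluedModule (𝒞.chart R)),
    IsPic0 𝒞 L → IsOpen (locus i R L)
  locus_spec : ∀ (i : ι) {R R' : Type u} [CommRing R] [Algebra k R] [CommRing R'] [Algebra k R']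
    (φ : R →ₐ[k] R') (L : GluedModule (𝒞.chart R)) (L' : GluedModule (𝒞.chart R')),
    IsPic0 𝒞 L → IsBC (𝒞.chartHom φ) L L' →
      (chart i R' L' ↔ Set.range (PrimeSpectrum.comap (φ : R →+* R')) ⊆ locus i R L)
  locus_cover : ∀ {R : Type u} [CommRing R] [Algebra k R] (L : GluedModule (𝒞.chart R)),
    IsPic0 𝒞 L → ⋃ i, locus i R L = Set.univ

attribute [instance] ChartAtlas.commRing ChartAtlas.algebra

/-- "`L'` is `L(x - ε)`, re-rigidified" for `R`-points `x` of either chart, with the properties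
the scheme side needs.  WARNING (audits of helper4165, helper6325, helper8185): the naive twist
`L ⊗ O(Γ_x) ⊗ O(-ε)` is a line bundle of fibre degree `deg L`, but its `ε`-fibre is the invertible
`R`-module `E = x^* O(ε)`, in general not free.  Intended meaning of `tw_i R x L L'`:
`L'` is `Rigid` and Zariski-locally on `Spec R` isomorphic to `L ⊗ O(Γ_x) ⊗ O(-ε)`
(e.g. `L' ≈ L ⊗ O(Γ_x) ⊗ O(-ε) ⊗_R E⁻¹`).  Uniqueness then holds by rigidity
(local isomorphisms, normalised at `ε`, glue because automorphisms are units of the base). -/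
structure PointTwists (𝒞 : CurveData k) where
  genus : ℕ
  tw₁ : ∀ (R : Type u) [CommRing R] [Algebra k R], (𝒞.A₁ →ₐ[k] R) →
    GluedModule (𝒞.chart R) → GluedModule (𝒞.chart R) → Prop
  tw₂ : ∀ (R : Type u) [CommRing R] [Algebra k R], (𝒞.A₂ →ₐ[k] R) →
    GluedModule (𝒞.chart R) → GluedModule (𝒞.chart R) → Prop
  exists₁ : ∀ {R : Type u} [CommRing R] [Algebra k R] (x : 𝒞.A₁ →ₐ[k] R)
    (L : GluedModule (𝒞.chart R)), IsPic0 𝒞 L → ∃ L', IsPic0 𝒞 L' ∧ tw₁ R x L L'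
  exists₂ : ∀ {R : Type u} [CommRing R] [Algebra k R] (x : 𝒞.A₂ →ₐ[k] R)
    (L : GluedModule (𝒞.chart R)), IsPic0 𝒞 L → ∃ L', IsPic0 𝒞 L' ∧ tw₂ R x L L'
  pic0₁ : ∀ {R : Type u} [CommRing R] [Algebra k R] (x : 𝒞.A₁ →ₐ[k] R)
    (L L' : GluedModule (𝒞.chart R)), IsPic0 𝒞 L → tw₁ R x L L' → IsPic0 𝒞 L'
  pic0₂ : ∀ {R : Type u} [CommRing R] [Algebra k R] (x : 𝒞.A₂ →ₐ[k] R)
    (L L' : GluedModule (𝒞.chart R)), IsPic0 𝒞 L → tw₂ R x L L' → IsPic0 𝒞 L'
  unique₁ : ∀ {R : Type u} [CommRing R] [Algebra k R] (x : 𝒞.A₁ →ₐ[k] R)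
    (L L' L'' : GluedModule (𝒞.chart R)), IsPic0 𝒞 L → IsPic0 𝒞 L' → IsPic0 𝒞 L'' →
      tw₁ R x L L' → tw₁ R x L L'' → Nonempty (L'.Iso L'')
  unique₂ : ∀ {R : Type u} [CommRing R] [Algebra k R] (x : 𝒞.A₂ →ₐ[k] R)
    (L L' L'' : GluedModule (𝒞.chart R)), IsPic0 𝒞 L → IsPic0 𝒞 L' → IsPic0 𝒞 L'' →
      tw₂ R x L L' → tw₂ R x L L'' → Nonempty (L'.Iso L'')
  iso₁ : ∀ {R : Type u} [CommRing R] [Algebra k R] (x : 𝒞.A₁ →ₐ[k] R)
    (L L' M M' : GluedModule (𝒞.chart R)), tw₁ R x L L' → Nonempty (L.Iso M) →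
      Nonempty (L'.Iso M') → tw₁ R x M M'
  iso₂ : ∀ {R : Type u} [CommRing R] [Algebra k R] (x : 𝒞.A₂ →ₐ[k] R)
    (L L' M M' : GluedModule (𝒞.chart R)), tw₂ R x L L' → Nonempty (L.Iso M) →
      Nonempty (L'.Iso M') → tw₂ R x M M'
  bc₁ : ∀ {R R' : Type u} [CommRing R] [Algebra k R] [CommRing R'] [Algebra k R']
    (φ : R →ₐ[k] R') (x : 𝒞.A₁ →ₐ[k] R) (L L' : GluedModule (𝒞.chart R))
    (M M' : GluedModule (𝒞.chart R')), tw₁ R x L L' → IsBC (𝒞.chartHom φ) L M →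
      IsBC (𝒞.chartHom φ) L' M' → tw₁ R' (φ.comp x) M M'
  bc₂ : ∀ {R R' : Type u} [CommRing R] [Algebra k R] [CommRing R'] [Algebra k R']
    (φ : R →ₐ[k] R') (x : 𝒞.A₂ →ₐ[k] R) (L L' : GluedModule (𝒞.chart R))
    (M M' : GluedModule (𝒞.chart R')), tw₂ R x L L' → IsBC (𝒞.chartHom φ) L M →
      IsBC (𝒞.chartHom φ) L' M' → tw₂ R' (φ.comp x) M M'
  /-- The two descriptions of a point of `U₁ ∩ U₂` agree. -/
  overlap : ∀ {R : Type u} [CommRing R] [Algebra k R] (x : 𝒞.A₁₂ →ₐ[k] R)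
    (L L' : GluedModule (𝒞.chart R)), tw₁ R (x.comp 𝒞.r₁) L L' ↔ tw₂ R (x.comp 𝒞.r₂) L L'
  /-- Over an algebraically closed field every point of `Pic⁰` is reached from `0` in
  `genus` steps. -/
  eff : ∀ (κ : Type u) [Field κ] [IsAlgClosed κ] [Algebra k κ] (L : GluedModule (𝒞.chart κ)),
    IsPic0 𝒞 L → ∃ M : Fin (genus + 1) → GluedModule (𝒞.chart κ),
      (∀ j, IsPic0 𝒞 (M j)) ∧
      Nonempty ((M 0).Iso (GluedModule.unit (𝒞.chart κ))) ∧
      Nonempty ((M (Fin.last genus)).Iso L) ∧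
      ∀ j : Fin genus, (∃ x, tw₁ κ x (M j.castSucc) (M j.succ)) ∨
        (∃ x, tw₂ κ x (M j.castSucc) (M j.succ))

/-- A family of line bundles on `C × Spec R`, `R` a finitely generated geometrically integral
`κ`-algebra, joining `O` (fibre at `p₀`) to `L` (fibre at `p₁`).
(Route: `R = (κ ⊗ A₁)^{⊗ g}`, `N = O(D_univ - Δ)`, `p₁ = D`, `p₀ = Δ`, where `L ≈ O(D - Δ)`.) -/
structure ConnectingFamily (𝒞 : CurveData k) (κ : Type u) [Field κ] [Algebra k κ]
    (L : GluedModule (𝒞.chart κ)) where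
  R : Type u
  [commRing : CommRing R]
  [algebra : Algebra k R]
  [algebraκ : Algebra κ R]
  [tower : IsScalarTower k κ R]
  finiteType : Algebra.FiniteType κ R
  geomDomain : ∀ (K : Type u) [Field K] [Algebra κ K], IsDomain (K ⊗[κ] R)
  N : GluedModule (𝒞.chart R)
  lineBundle : N.IsLineBundle
  p₀ : R →ₐ[κ] κ
  p₁ : R →ₐ[κ] κ
  fibre₀ : IsBC (𝒞.chartHom (p₀.restrictScalars k)) N (GluedModule.unit (𝒞.chart κ))
  fibre₁ : IsBC (𝒞.chartHom (p₁.restrictScalars k)) N L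

end Fermat.Agent.S25
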