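/-
S25 package BC (STUB): base change of glued modules, `Pic⁰` basics, automorphisms.
Statements are FROZEN (board v1 of helper5425); proofs by helper3770 in
`Fermat/Agent/S25/BC/H3770/{Univ,Glued,Exists,GlobUnits,Main}.lean` (complete proofs).
-/
import Fermat.Agent.S25.Defs
import Fermat.Agent.S25.BC.H3770.Main

set_option autoImplicit false

universe u

namespace Fermat.Agent.S25

open scoped TensorProduct

open GluedModule

variable {k : Type u} [Field k] (𝒞 : CurveData k)

/-- Base change exists. -/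
theorem exists_isBC {R R' : Type u} [CommRing R] [Algebra k R] [CommRing R'] [Algebra k R']
    (φ : R →ₐ[k] R') (L : GluedModule (𝒞.chart R)) :
    ∃ L' : GluedModule (𝒞.chart R'), IsBC (𝒞.chartHom φ) L L' :=
  BC.H3770.thm_exists_isBC 𝒞 φ L

/-- Base change is unique up to isomorphism. -/
theorem isBC_unique {R R' : Type u} [CommRing R] [Algebra k R] [CommRing R'] [Algebra k R']
    (φ : R →ₐ[k] R') (L : GluedModule (𝒞.chart R)) (L' L'' : GluedModule (𝒞.chart R'))
    (h' : IsBC (𝒞.chartHom φ) L L') (h'' : IsBC (𝒞.chartHom φ) L L'') :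
    Nonempty (L'.Iso L'') :=
  BC.H3770.thm_isBC_unique 𝒞 φ L L' L'' h' h''

/-- Being a base change is invariant under isomorphism on both sides. -/
theorem isBC_of_iso {R R' : Type u} [CommRing R] [Algebra k R] [CommRing R'] [Algebra k R']
    (φ : R →ₐ[k] R') (L M : GluedModule (𝒞.chart R)) (L' M' : GluedModule (𝒞.chart R'))
    (h : IsBC (𝒞.chartHom φ) L L') (e : Nonempty (L.Iso M)) (e' : Nonempty (L'.Iso M')) :
    IsBC (𝒞.chartHom φ) M M' :=
  BC.H3770.thm_isBC_of_iso 𝒞 φ L M L' M' h e e'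

/-- Base change along the identity is an isomorphism. -/
theorem isBC_id_iff {R : Type u} [CommRing R] [Algebra k R]
    (L L' : GluedModule (𝒞.chart R)) :
    IsBC (𝒞.chartHom (AlgHom.id k R)) L L' ↔ Nonempty (L.Iso L') :=
  BC.H3770.thm_isBC_id_iff 𝒞 L L'

/-- Base change composes. -/
theorem isBC_comp {R R' R'' : Type u} [CommRing R] [Algebra k R] [CommRing R'] [Algebra k R']
    [CommRing R''] [Algebra k R''] (φ : R →ₐ[k] R') (ψ : R' →ₐ[k] R'')
    (L : GluedModule (𝒞.chart R)) (L' : GluedModule (𝒞.chart R'))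
    (L'' : GluedModule (𝒞.chart R'')) (h : IsBC (𝒞.chartHom φ) L L')
    (h' : IsBC (𝒞.chartHom ψ) L' L'') : IsBC (𝒞.chartHom (ψ.comp φ)) L L'' :=
  BC.H3770.thm_isBC_comp 𝒞 φ ψ L L' L'' h h'

/-- The base change of the structure sheaf is the structure sheaf. -/
theorem isBC_unit {R R' : Type u} [CommRing R] [Algebra k R] [CommRing R'] [Algebra k R']
    (φ : R →ₐ[k] R') :
    IsBC (𝒞.chartHom φ) (GluedModule.unit (𝒞.chart R)) (GluedModule.unit (𝒞.chart R')) :=
  BC.H3770.thm_isBC_unit 𝒞 φ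

/-- Line bundles are stable under base change. -/
theorem isLineBundle_of_isBC {R R' : Type u} [CommRing R] [Algebra k R] [CommRing R']
    [Algebra k R'] (φ : R →ₐ[k] R') (L : GluedModule (𝒞.chart R))
    (L' : GluedModule (𝒞.chart R')) (hL : L.IsLineBundle) (h : IsBC (𝒞.chartHom φ) L L') :
    L'.IsLineBundle :=
  BC.H3770.thm_isLineBundle_of_isBC 𝒞 φ L L' hL h

/-- Line bundles are stable under isomorphism. -/
theorem isLineBundle_of_iso {R : Type u} [CommRing R] [Algebra k R]
    (L L' : GluedModule (𝒞.chart R)) (hL : L.IsLineBundle) (e : Nonempty (L.Iso L')) :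
    L'.IsLineBundle :=
  BC.H3770.thm_isLineBundle_of_iso 𝒞 L L' hL e

/-- The Euler characteristic is an isomorphism invariant. -/
theorem chi_congr {K : Type u} [Field K] [Algebra k K] (N N' : GluedModule (𝒞.chart K))
    (e : Nonempty (N.Iso N')) : GluedModule.chi N = GluedModule.chi N' :=
  BC.H3770.thm_chi_congr 𝒞 N N' e

/-- `Pic⁰` is stable under isomorphism. -/
theorem isPic0_of_iso {R : Type u} [CommRing R] [Algebra k R]
    (L L' : GluedModule (𝒞.chart R)) (hL : IsPic0 𝒞 L) (e : Nonempty (L.Iso L')) :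
    IsPic0 𝒞 L' :=
  BC.H3770.thm_isPic0_of_iso 𝒞 L L' hL e

/-- `Pic⁰` is stable under base change. -/
theorem isPic0_of_isBC {R R' : Type u} [CommRing R] [Algebra k R] [CommRing R'] [Algebra k R']
    (φ : R →ₐ[k] R') (L : GluedModule (𝒞.chart R)) (L' : GluedModule (𝒞.chart R'))
    (hL : IsPic0 𝒞 L) (h : IsBC (𝒞.chartHom φ) L L') : IsPic0 𝒞 L' :=
  BC.H3770.thm_isPic0_of_isBC 𝒞 φ L L' hL h

/-- The structure sheaf is in `Pic⁰`. -/
theorem isPic0_unit (R : Type u) [CommRing R] [Algebra k R] :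
    IsPic0 𝒞 (GluedModule.unit (𝒞.chart R)) :=
  BC.H3770.thm_isPic0_unit 𝒞 R

/-- (E_aut) Automorphisms of a line bundle are the units of the base
(`H⁰(C_R, O) = R` by flat base change of `𝒞.glob`). -/
theorem aut_eq_units {R : Type u} [CommRing R] [Algebra k R] (L : GluedModule (𝒞.chart R))
    (hL : L.IsLineBundle) (α : L.Iso L) :
    ∃! r : Rˣ, (∀ n, α.e₁ n = (r : R) • n) ∧ (∀ n, α.e₂ n = (r : R) • n) ∧
      (∀ n, α.e₁₂ n = (r : R) • n) :=
  BC.H3770.thm_aut_eq_units 𝒞 L hL α

end Fermat.Agent.S25
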