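/-
S25 package CONN: every degree-0 line bundle over an algebraically closed field is
joined to the structure sheaf by a family over a geometrically integral affine base.
Statement FROZEN (BOARD v1.1); proof in `Fermat/Agent/S25/CONN/Main.lean` (helper6731 assembly;
leaves by helper6731, helper3025, helper2531, helper2485, helper2530, helper3911).
-/
import Fermat.Agent.S25.AlgDefs
import Fermat.Agent.S25.CONN.Main

set_option autoImplicit false

universe u

namespace Fermat.Agent.S25

variable {k : Type u} [Field k] (𝒞 : CurveData k) [IsAlgClosed k]

/-- (E_conn) Connecting families exist. -/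
theorem exists_connectingFamily (κ : Type u) [Field κ] [IsAlgClosed κ] [Algebra k κ]
    (L : GluedModule (𝒞.chart κ)) (hL : IsPic0 𝒞 L) : Nonempty (ConnectingFamily 𝒞 κ L) :=
  CONN.exists_connectingFamily_main 𝒞 κ L hL

end Fermat.Agent.S25
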