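/-
S25 (Jacobian) -- FROZEN interface structures of the scheme side.
See notes/S25/S25_route.md and BOARD.md (origin/helper5425).  Author: helper5425.
Definitions only; no sorry.  NEVER edit (ask the project lead).
-/
import Fermat.Agent.S25.Defs
import Fermat.Prelude.Def_AlgebraicGeometry_NeronModelPropertyBundleCarrier
import Fermat.Prelude.Def_JacJ1Iface
import Fermat.Prelude.Def_AlgebraicGeometry_RelativePicardFunctor
import Fermat.Prelude.Def_AlgebraicGeometry_RepresentsRelSubPic
import Fermat.Prelude.Def_AlgebraicGeometry_RelPicardAlgEquivZeroCut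

set_option autoImplicit false

universe u

namespace Fermat.Agent.S25

open CategoryTheory CategoryTheory.Limits AlgebraicGeometry AlgebraicGeometry.RelPicard
  NeronModelInfra GoodReductionJacobian

open scoped TensorProduct

variable (k : Type u) [Field k]

/-- The structure morphism `Spec R ⟶ Spec k` of a `k`-algebra. -/
noncomputable def tR (R : Type u) [CommRing R] [Algebra k R] :
    Spec (CommRingCat.of R) ⟶ Spec (CommRingCat.of k) :=
  Spec.map (CommRingCat.ofHom (algebraMap k R))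

/-- `Spec φ` as a morphism over `Spec k`. -/
noncomputable def specHomOver {R R' : Type u} [CommRing R] [Algebra k R] [CommRing R']
    [Algebra k R'] (φ : R →ₐ[k] R') : SchemeHomOver (tR k R') (tR k R) :=
  ⟨Spec.map (CommRingCat.ofHom (φ : R →+* R')), by
    unfold tR
    rw [← Spec.map_comp, ← CommRingCat.ofHom_comp, AlgHom.comp_algebraMap]⟩

variable {k}

/-- The `k`-algebra structure map of the ring of sections over an open of a `k`-scheme. -/
noncomputable def sectionAlg {C : Scheme.{u}} (c : C ⟶ Spec (CommRingCat.of k)) (U : C.Opens) :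
    k →+* Γ(C, U) :=
  ((Scheme.ΓSpecIso (CommRingCat.of k)).inv ≫ c.appLE ⊤ U le_top).hom

/-- A presentation of the curve `C` by the algebraic data `𝒞`: two affine opens `U₁ ∋ ε`, `U₂`
covering `C`, with coordinate rings `A₁`, `A₂`, and `U₁ ∩ U₂ = D(f) = D(g)` with ring `A₁₂`. -/
structure Presentation {C : Scheme.{u}} (c : C ⟶ Spec (CommRingCat.of k))
    (ε : SchemeHomOver (𝟙 (Spec (CommRingCat.of k))) c) where
  𝒞 : CurveData k
  U₁ : C.Opens
  U₂ : C.Opens
  affine₁ : IsAffineOpen U₁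
  affine₂ : IsAffineOpen U₂
  cover : U₁ ⊔ U₂ = ⊤
  e₁ : 𝒞.A₁ ≃+* Γ(C, U₁)
  e₂ : 𝒞.A₂ ≃+* Γ(C, U₂)
  e₁₂ : 𝒞.A₁₂ ≃+* Γ(C, U₁ ⊓ U₂)
  alg₁ : ∀ a : k, e₁ (algebraMap k 𝒞.A₁ a) = sectionAlg c U₁ a
  alg₂ : ∀ a : k, e₂ (algebraMap k 𝒞.A₂ a) = sectionAlg c U₂ a
  alg₁₂ : ∀ a : k, e₁₂ (algebraMap k 𝒞.A₁₂ a) = sectionAlg c (U₁ ⊓ U₂) a
  res₁ : ∀ a : 𝒞.A₁, e₁₂ (𝒞.r₁ a) = (C.presheaf.map (homOfLE inf_le_left).op).hom (e₁ a)
  res₂ : ∀ a : 𝒞.A₂, e₁₂ (𝒞.r₂ a) = (C.presheaf.map (homOfLE inf_le_right).op).hom (e₂ a)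
  inter₁ : U₁ ⊓ U₂ = C.basicOpen (e₁ 𝒞.f)
  inter₂ : U₁ ⊓ U₂ = C.basicOpen (e₂ 𝒞.g)
  /-- `ε` lies in `U₁`. -/
  ε_le : (⊤ : (Spec (CommRingCat.of k)).Opens) ≤ ε.1 ⁻¹ᵁ U₁
  /-- `ε` is the `k`-point `𝒞.ε` of `U₁ = Spec A₁`. -/
  ε_eq : ∀ a : 𝒞.A₁,
    (ε.1.appLE U₁ ⊤ ε_le ≫ (Scheme.ΓSpecIso (CommRingCat.of k)).hom).hom (e₁ a) = 𝒞.ε a

/-- The dictionary between invertible modules on `C ×_k Spec R` and glued line bundles over
`𝒞.chart R`, for all `k`-algebras `R`.  `Corr R M N` means "`N` is the glued module of sections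
of the invertible module `M` over the two charts".  This structure is the ONLY contract between
the bridge package (DICT) and the packages ZAR, MACH, PROP, ALGEQ. -/
structure Dictionary {C : Scheme.{u}} (c : C ⟶ Spec (CommRingCat.of k))
    (ε : SchemeHomOver (𝟙 (Spec (CommRingCat.of k))) c) (𝒞 : CurveData k) where
  Corr : ∀ (R : Type u) [CommRing R] [Algebra k R],
    (pullback c (tR k R)).Modules → GluedModule (𝒞.chart R) → Prop
  inv_left : ∀ {R : Type u} [CommRing R] [Algebra k R] {M : (pullback c (tR k R)).Modules}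
    {N : GluedModule (𝒞.chart R)}, Corr R M N → Scheme.Modules.IsInvertible M
  inv_right : ∀ {R : Type u} [CommRing R] [Algebra k R] {M : (pullback c (tR k R)).Modules}
    {N : GluedModule (𝒞.chart R)}, Corr R M N → N.IsLineBundle
  exists_glued : ∀ {R : Type u} [CommRing R] [Algebra k R] (M : (pullback c (tR k R)).Modules),
    Scheme.Modules.IsInvertible M → ∃ N : GluedModule (𝒞.chart R), Corr R M N
  exists_module : ∀ {R : Type u} [CommRing R] [Algebra k R] (N : GluedModule (𝒞.chart R)),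
    N.IsLineBundle → ∃ M : (pullback c (tR k R)).Modules, Corr R M N
  congr : ∀ {R : Type u} [CommRing R] [Algebra k R] {M M' : (pullback c (tR k R)).Modules}
    {N N' : GluedModule (𝒞.chart R)}, Corr R M N → Nonempty (M ≅ M') → Nonempty (N.Iso N') →
      Corr R M' N'
  iso_iff : ∀ {R : Type u} [CommRing R] [Algebra k R] {M M' : (pullback c (tR k R)).Modules}
    {N N' : GluedModule (𝒞.chart R)}, Corr R M N → Corr R M' N' →
      (Nonempty (M ≅ M') ↔ Nonempty (N.Iso N'))
  unit : ∀ (R : Type u) [CommRing R] [Algebra k R],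
    Corr R (SheafOfModules.unit (pullback c (tR k R)).ringCatSheaf)
      (GluedModule.unit (𝒞.chart R))
  /-- Pullback along `C × Spec R' ⟶ C × Spec R` corresponds to base change. -/
  bc : ∀ {R R' : Type u} [CommRing R] [Algebra k R] [CommRing R'] [Algebra k R']
    (φ : R →ₐ[k] R') {M : (pullback c (tR k R)).Modules} {N : GluedModule (𝒞.chart R)}
    {N' : GluedModule (𝒞.chart R')}, Corr R M N → GluedModule.IsBC (𝒞.chartHom φ) N N' →
      Corr R' ((Scheme.Modules.pullback (baseChangeSnd c (specHomOver k φ))).obj M) N'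
  /-- Rigidifiable along `ε` on the scheme side iff `Rigid` on the algebra side. -/
  rigid_iff : ∀ {R : Type u} [CommRing R] [Algebra k R] {M : (pullback c (tR k R)).Modules}
    {N : GluedModule (𝒞.chart R)}, Corr R M N →
      (Nonempty ((Scheme.Modules.pullback (rigSection c (tR k R) ε)).obj M ≅
        SheafOfModules.unit (Spec (CommRingCat.of R)).ringCatSheaf) ↔ Rigid 𝒞 N)
  /-- An endomorphism of an invertible module on `C × Spec R` which is the identity along the
  section `ε` is the identity (endomorphisms are scalars from `R`). -/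
  end_rigid : ∀ {R : Type u} [CommRing R] [Algebra k R] (M : (pullback c (tR k R)).Modules),
    Scheme.Modules.IsInvertible M → ∀ β : M ⟶ M,
      (Scheme.Modules.pullback (rigSection c (tR k R) ε)).map β = 𝟙 _ → β = 𝟙 M

variable {C : Scheme.{u}} {c : C ⟶ Spec (CommRingCat.of k)}
  {ε : SchemeHomOver (𝟙 (Spec (CommRingCat.of k))) c} {𝒞 : CurveData k}

/-- Scheme-side "fibrewise of degree zero", through a dictionary: at every geometric point the
fibre corresponds to a glued module with the Euler characteristic of the structure sheaf. -/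
def IsDeg0 (𝒟 : Dictionary c ε 𝒞) {T : Scheme.{u}} (t : T ⟶ Spec (CommRingCat.of k))
    (M : RigidifiedLineBundle c ε t) : Prop :=
  ∀ (κ : Type u) [Field κ] [IsAlgClosed κ] [Algebra k κ] (s : SchemeHomOver (tR k κ) t)
    (N : GluedModule (𝒞.chart κ)), 𝒟.Corr κ (M.pullbackAlong s).L N →
      GluedModule.chi N = GluedModule.chi (GluedModule.unit (𝒞.chart κ))

end Fermat.Agent.S25
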