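/-
S25 package DEG: the Euler characteristic of a family of line bundles is locally constant.
Statement FROZEN (board v1).  Proof (assembled by helper6190):
* `DEG/V6190/{Index,FibreLemmas,TwistVanish,DegLocConst}.lean` : helper4031's Core form of E_deg
  (Fredholm index of the fibre complexes `L.d.baseChange κ`, uniform twist vanishing);
* `DEG/V6190/{A2h6470,A0Free5050,Chart,ProjTrans,ChartProj,DegChart}.lean` : instantiation for
  line bundles on curve charts (helper6470 (F),(CB1); helper5050 freeness over `R[f]`;
  helper6408 chart; helper7811 projectivity + assembly `exists_locallyConstant_ind_chart`);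
* `DEG/Bridge6190.lean` : `IsBC (𝒞.chartHom φ) L L'` identifies the Čech complex of `L'` with the
  fibre complex of `L` (helper6190).
-/
import Fermat.Agent.S25.Defs
import Fermat.Agent.S25.DEG.Bridge6190
import Fermat.Agent.S25.DEG.V6190.DegChart

set_option autoImplicit false
set_option linter.style.haveILetI false

universe u

namespace Fermat.Agent.S25

open scoped TensorProduct

open GluedModule

variable {k : Type u} [Field k] (𝒞 : CurveData k) [IsAlgClosed k]

/-- (E_deg) The Euler characteristic of a family of line bundles is locally constant on the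
base, and at a geometric point it only depends on the underlying point of `Spec R`. -/
theorem chi_locallyConstant {R : Type u} [CommRing R] [Algebra k R]
    (L : GluedModule (𝒞.chart R)) (hL : L.IsLineBundle) :
    ∃ d : PrimeSpectrum R → ℤ, IsLocallyConstant d ∧
      ∀ (κ : Type u) [Field κ] [IsAlgClosed κ] [Algebra k κ] (φ : R →ₐ[k] κ)
        (L' : GluedModule (𝒞.chart κ)), IsBC (𝒞.chartHom φ) L L' →
          GluedModule.chi L' = d ⟨RingHom.ker (φ : R →+* κ), RingHom.ker_isPrime _⟩ := by
  obtain ⟨χ, hχ, hind⟩ :=
    DEG.V6190.H7811.exists_locallyConstant_ind_chart.{u, u} 𝒞 R L hL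
  refine ⟨χ, hχ, ?_⟩
  intro κ _ _ _ φ L' hBC
  letI : Algebra R κ := (φ : R →+* κ).toAlgebra
  obtain ⟨-, h2⟩ := hind κ
  rw [DEG.Bridge6190.chi_eq_of_isBC 𝒞 φ (fun _ => rfl) L L' hBC]
  have hpt : (PrimeSpectrum.comap (algebraMap R κ) ⊥ : PrimeSpectrum R) =
      ⟨RingHom.ker (φ : R →+* κ), RingHom.ker_isPrime _⟩ := by
    apply PrimeSpectrum.ext
    rfl
  rw [← hpt, ← h2]
  rfl

end Fermat.Agent.S25
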