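/-
S25 package ALGEQ: `FibrewiseAlgEquivZero` is "fibrewise of degree zero".
Statement FROZEN (project interface of helper5425).  Proof:
* `⇒` `ALGEQ.isDeg0_of_fibrewiseAlgEquivZero` (helper5965, `ALGEQ/Forward.lean`): constancy of the
  Euler characteristic along an integral base (package DEG);
* `⇐` `ALGEQ.fibrewiseAlgEquivZero_of_isDeg0` (helper9550, `ALGEQ/Backward.lean`): connecting
  families (package CONN) and the pasting criterion of helper1291 (`ALGEQ/AE0Criterion.lean`).
-/
import Fermat.Agent.S25.SchDefs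
import Fermat.Agent.S25.AlgDefs
import Fermat.Agent.S25.ALGEQ.Forward
import Fermat.Agent.S25.ALGEQ.Backward

set_option autoImplicit false

universe u

namespace Fermat.Agent.S25

open CategoryTheory CategoryTheory.Limits AlgebraicGeometry AlgebraicGeometry.RelPicard
  NeronModelInfra GoodReductionJacobian

/-- (SC5) Algebraic equivalence to zero on geometric fibres is degree zero on geometric fibres. -/
theorem algEquivZero_iff_isDeg0 (k : Type u) [Field k] [IsAlgClosed k] {C : Scheme.{u}}
    (c : C ⟶ Spec (CommRingCat.of k)) [IsProper c] [SmoothOfRelativeDimension 1 c]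
    [IsIntegral C] (ε : SchemeHomOver (𝟙 (Spec (CommRingCat.of k))) c) {𝒞 : CurveData k}
    (𝒟 : Dictionary c ε 𝒞) {T : Scheme.{u}} (t : T ⟶ Spec (CommRingCat.of k))
    (M : RigidifiedLineBundle c ε t) : FibrewiseAlgEquivZero M ↔ IsDeg0 𝒟 t M :=
  ⟨ALGEQ.isDeg0_of_fibrewiseAlgEquivZero 𝒟 t M, ALGEQ.fibrewiseAlgEquivZero_of_isDeg0 𝒟 t M⟩

end Fermat.Agent.S25
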