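/-
S25 package ATLAS: the atlas of explicit affine charts of `Pic⁰`.
Statement FROZEN (project lead helper5425).  Derived (captain helper6325) from the four
sub-stubs `ATLAS/RIG.lean`, `ATLAS/LIFT.lean`, `ATLAS/DIV.lean`, `ATLAS/TW.lean`
via `ATLAS/Assembly.lean`; no sorry of its own.
-/
import Fermat.Agent.S25.AlgDefs
import Fermat.Agent.S25.ATLAS.Assembly

set_option autoImplicit false

universe u

namespace Fermat.Agent.S25

variable {k : Type u} [Field k] (𝒞 : CurveData k) [IsAlgClosed k]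

/-- (E_chart) The atlas exists. -/
theorem exists_chartAtlas : Nonempty (ChartAtlas 𝒞) := by
  obtain ⟨𝒟⟩ := ATLAS.exists_divAtlas 𝒞
  obtain ⟨T⟩ := ATLAS.exists_twistFamily 𝒞
  exact ATLAS.chartAtlas_of 𝒞 𝒟 T

end Fermat.Agent.S25
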