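/-
S25 package DICT: the bridge between invertible modules on `C ×_k Spec R` and glued
line bundles over the two-chart `𝒞.chart R`.
Statement FROZEN.  Proof: `Fermat/Agent/S25/DICT/Plan.lean` (family atlas + assembly).
-/
import Fermat.Agent.S25.SchDefs
import Fermat.Agent.S25.DICT.Plan

set_option autoImplicit false

universe u

namespace Fermat.Agent.S25

open CategoryTheory CategoryTheory.Limits AlgebraicGeometry AlgebraicGeometry.RelPicard
  NeronModelInfra GoodReductionJacobian

/-- (SM/SC1) The dictionary exists. -/
theorem exists_dictionary (k : Type u) [Field k] [IsAlgClosed k] {C : Scheme.{u}}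
    (c : C ⟶ Spec (CommRingCat.of k)) [IsProper c] [SmoothOfRelativeDimension 1 c]
    [IsIntegral C] (ε : SchemeHomOver (𝟙 (Spec (CommRingCat.of k))) c)
    (pres : Presentation c ε) : Nonempty (Dictionary c ε pres.𝒞) := by
  obtain ⟨𝔄⟩ := DICT.exists_familyAtlas c ε pres
  exact ⟨DICT.dictionary 𝔄⟩

end Fermat.Agent.S25
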