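/-
S25 package ZAR: the rigidified Picard functor is a Zariski sheaf on the base.
Statements FROZEN (official interface origin/helper5425 BOARD v1.1, verbatim).
Assembled by helper5411 (chief integrator): `sep` = captain helper4770 (Z1-Z4), `glue` = Z5 via
helper1891's `rig_glue` (copied under `ZAR/H*/`, namespaces renamed) + `ZAR/H1891/RigUniv.lean`.
-/
import Fermat.Agent.S25.SchDefs
import Fermat.Agent.S25.ZAR.Plan

set_option autoImplicit false

universe u

namespace Fermat.Agent.S25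

open CategoryTheory CategoryTheory.Limits AlgebraicGeometry AlgebraicGeometry.RelPicard
  NeronModelInfra GoodReductionJacobian

variable {k : Type u} [Field k] {C : Scheme.{u}} {c : C ⟶ Spec (CommRingCat.of k)}
  {ε : SchemeHomOver (𝟙 (Spec (CommRingCat.of k))) c} {𝒞 : CurveData k}

/-- (sep) Two rigidified line bundles on `C × T` which are isomorphic locally on `T` are
isomorphic. -/
theorem sep (𝒟 : Dictionary c ε 𝒞) {T : Scheme.{u}} (t : T ⟶ Spec (CommRingCat.of k))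
    (M M' : RigidifiedLineBundle c ε t) (𝒰 : Scheme.OpenCover.{u} T)
    (h : ∀ a, Nonempty
      ((M.pullbackAlong (⟨𝒰.f a, rfl⟩ : SchemeHomOver (𝒰.f a ≫ t) t)).L ≅
        (M'.pullbackAlong (⟨𝒰.f a, rfl⟩ : SchemeHomOver (𝒰.f a ≫ t) t)).L)) :
    Nonempty (M.L ≅ M'.L) :=
  ZAR.rig_sep c ε t (ZAR.surjective_snd_app 𝒟 t) 𝒰 M M' h

/-- (glue) Rigidified line bundles on the `C × V_a`, `V_a` an open cover of `T`, which are
isomorphic on the overlaps, glue to a rigidified line bundle on `C × T`. -/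
theorem glue (𝒟 : Dictionary c ε 𝒞) {T : Scheme.{u}} (t : T ⟶ Spec (CommRingCat.of k))
    (𝒰 : Scheme.OpenCover.{u} T) (M : ∀ a, RigidifiedLineBundle c ε (𝒰.f a ≫ t))
    (h : ∀ a b, Nonempty
      (((M a).pullbackAlong (⟨pullback.fst (𝒰.f a) (𝒰.f b), rfl⟩ :
          SchemeHomOver (pullback.fst (𝒰.f a) (𝒰.f b) ≫ 𝒰.f a ≫ t) (𝒰.f a ≫ t))).L ≅
        ((M b).pullbackAlong (⟨pullback.snd (𝒰.f a) (𝒰.f b), by
            rw [← Category.assoc, ← pullback.condition, Category.assoc]⟩ :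
          SchemeHomOver (pullback.fst (𝒰.f a) (𝒰.f b) ≫ 𝒰.f a ≫ t) (𝒰.f b ≫ t))).L)) :
    ∃ N : RigidifiedLineBundle c ε t, ∀ a, Nonempty
      ((N.pullbackAlong (⟨𝒰.f a, rfl⟩ : SchemeHomOver (𝒰.f a ≫ t) t)).L ≅ (M a).L) :=
  ZAR.rig_glue c ε (fun t' W => ZAR.surjective_snd_app 𝒟 t' W) t 𝒰 M h

end Fermat.Agent.S25
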