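/-
S25 package MACH: the gluing machine: atlas + dictionary ⟹ the representing scheme.
Statement FROZEN (BOARD v1 of origin/helper5425); proof filled by helper1070 from the abstract
machine of helper970 (`MACH/SC3/Machine.lean`) and the wiring in `MACH/Translate.lean`.
-/
import Fermat.Agent.S25.SchDefs
import Fermat.Agent.S25.AlgDefs
import Fermat.Agent.S25.MACH.Translate

set_option autoImplicit false

universe u

namespace Fermat.Agent.S25

open CategoryTheory CategoryTheory.Limits AlgebraicGeometry AlgebraicGeometry.RelPicard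
  NeronModelInfra GoodReductionJacobian

/-- (SC3) Glue the charts `Spec (𝒜.S i)` along the chart loci to a scheme representing the
degree-zero rigidified Picard functor; it is smooth because the charts are. -/
theorem machine (k : Type u) [Field k] [IsAlgClosed k] {C : Scheme.{u}}
    (c : C ⟶ Spec (CommRingCat.of k)) [IsProper c] [SmoothOfRelativeDimension 1 c]
    [IsIntegral C] (ε : SchemeHomOver (𝟙 (Spec (CommRingCat.of k))) c) {𝒞 : CurveData k}
    (𝒟 : Dictionary c ε 𝒞) (𝒜 : ChartAtlas 𝒞)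
    (hdeg : ∀ {T : Scheme.{u}} (t : T ⟶ Spec (CommRingCat.of k))
      (M : RigidifiedLineBundle c ε t), FibrewiseAlgEquivZero M ↔ IsDeg0 𝒟 t M) :
    ∃ D : RelativePic0Designation k c,
      Nonempty (RepresentsRelSubPic c ε (algEquivZeroCut c ε) D) ∧ Smooth D.toBase := by
  obtain ⟨D, h, j, hj1, hj2, hj, -⟩ :=
    MACH.SC3.exists_represents_of_charts (algEquivZeroCut c ε)
      (MACH.isLocalCut 𝒟 hdeg) (MACH.rigSep 𝒟) (MACH.rigGlue 𝒟)
      (fun i : 𝒜.ι => Spec (CommRingCat.of (𝒜.S i))) (fun i => tR k (𝒜.S i))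
      (MACH.chartBundle 𝒟 𝒜) (MACH.chartBundle_mem 𝒟 𝒜 hdeg)
      (MACH.chart_inj 𝒟 𝒜) (fun i A a M hM => MACH.chart_open 𝒟 𝒜 hdeg i A a M hM)
      (fun K _ _ a M hM => MACH.chart_cover 𝒟 𝒜 hdeg K a M hM)
  refine ⟨D, ⟨h⟩, MACH.SC3.smooth_of_charts D.toBase _ j hj1 hj2 fun i => ?_⟩
  rw [hj i]
  exact MACH.smooth_tR _ (𝒜.finiteType i) (𝒜.formallySmooth i)

end Fermat.Agent.S25
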