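/-
S25 package PRES: algebraic presentation of the curve (route notes, "Layer 0").
Statements FROZEN (BOARD v1.1 of helper5425); proofs in `Fermat/Agent/S25/PRES/`
(integration: helper2111, deputy captain; provenance in `BOARD_S25_PRES.md`).
-/
import Fermat.Agent.S25.SchDefs
import Fermat.Agent.S25.PRES.Main
import Fermat.Agent.S25.PRES.Adapter
import Fermat.Agent.S25.PRES.GeomConn

set_option autoImplicit false

universe u

namespace Fermat.Agent.S25

open CategoryTheory CategoryTheory.Limits AlgebraicGeometry AlgebraicGeometry.RelPicard
  NeronModelInfra GoodReductionJacobian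

/-- (SC0) The curve has a two-chart presentation. -/
theorem exists_presentation (k : Type u) [Field k] [IsAlgClosed k] {C : Scheme.{u}}
    (c : C ⟶ Spec (CommRingCat.of k)) [IsProper c] [SmoothOfRelativeDimension 1 c]
    [IsIntegral C] (ε : SchemeHomOver (𝟙 (Spec (CommRingCat.of k))) c) :
    Nonempty (Presentation c ε) :=
  (PRES.nonempty_presentation c ε).map PRES.Presentation.toFrozen

/-- An integral curve over an algebraically closed field is geometrically connected. -/
theorem curve_geometricallyConnected (k : Type u) [Field k] [IsAlgClosed k] {C : Scheme.{u}}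
    (c : C ⟶ Spec (CommRingCat.of k)) [IsProper c] [SmoothOfRelativeDimension 1 c]
    [IsIntegral C] : GeometricallyConnected c :=
  PRES.geometricallyConnected_of_isAlgClosed c

end Fermat.Agent.S25
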