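/-
S25 package VALSEP: valuative criterion of separatedness for `Pic⁰`, algebra side.
Statement FROZEN (unchanged); proof assembled by helper348 from helper2750 (denominators),
helper2910 (isogeny over a valuation ring), helper8028 (domain lemma).
-/
import Fermat.Agent.S25.Defs
import Fermat.Agent.S25.VALSEP.W348.Wire

set_option autoImplicit false

universe u

namespace Fermat.Agent.S25

open scoped TensorProduct

open GluedModule

variable {k : Type u} [Field k] (𝒞 : CurveData k) [IsAlgClosed k]

/-- (E_valsep) Two families in `Pic⁰` over a valuation ring which are isomorphic over the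
fraction field are isomorphic. -/
theorem valuative_separated (V : Type u) [CommRing V] [IsDomain V] [ValuationRing V]
    [Algebra k V] (K : Type u) [Field K] [Algebra V K] [IsFractionRing V K] [Algebra k K]
    [IsScalarTower k V K] (L L' : GluedModule (𝒞.chart V)) (hL : IsPic0 𝒞 L)
    (hL' : IsPic0 𝒞 L') (M M' : GluedModule (𝒞.chart K))
    (hM : IsBC (𝒞.chartHom (IsScalarTower.toAlgHom k V K)) L M)
    (hM' : IsBC (𝒞.chartHom (IsScalarTower.toAlgHom k V K)) L' M')
    (e : Nonempty (M.Iso M')) : Nonempty (L.Iso L') :=
  VALSEP.W348.valSep 𝒞 V K L L' hL.lineBundle hL'.lineBundle M M' hM hM' e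

end Fermat.Agent.S25
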