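/-
S25 package PROP: the representing scheme is proper and geometrically connected.
Statement FROZEN (board v1.1); proof by helper5970 in `Fermat/Agent/S25/PROP/H5970/`
(uses the stubs BC and VALSEP only).
-/
import Fermat.Agent.S25.SchDefs
import Fermat.Agent.S25.AlgDefs
import Fermat.Agent.S25.PROP.H5970.Main

set_option autoImplicit false

universe u

namespace Fermat.Agent.S25

open CategoryTheory CategoryTheory.Limits AlgebraicGeometry AlgebraicGeometry.RelPicard
  NeronModelInfra GoodReductionJacobian

/-- (SC4) Separated by the valuative criterion; universally closed, quasi-compact and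
geometrically connected because `C^g ⟶ J`, `(x₁..x_g) ↦ O(Σ x_j - gε)`, is surjective. -/
theorem proper_connected (k : Type u) [Field k] [IsAlgClosed k] {C : Scheme.{u}}
    (c : C ⟶ Spec (CommRingCat.of k)) [IsProper c] [SmoothOfRelativeDimension 1 c]
    [IsIntegral C] (ε : SchemeHomOver (𝟙 (Spec (CommRingCat.of k))) c)
    (pres : Presentation c ε) (𝒟 : Dictionary c ε pres.𝒞) (𝒯 : PointTwists pres.𝒞)
    (hdeg : ∀ {T : Scheme.{u}} (t : T ⟶ Spec (CommRingCat.of k))
      (M : RigidifiedLineBundle c ε t), FibrewiseAlgEquivZero M ↔ IsDeg0 𝒟 t M)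
    (D : RelativePic0Designation k c)
    (hrep : RepresentsRelSubPic c ε (algEquivZeroCut c ε) D) (hsm : Smooth D.toBase) :
    IsProper D.toBase ∧ GeometricallyConnected D.toBase :=
  PROP.H5970.proper_connected_of_pres pres 𝒯 𝒟 hrep hdeg hsm

end Fermat.Agent.S25
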