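/-
S25 package TWIST (STUB): adding a point `L ↦ L(x - ε)` in families; effectivity.
Statement FROZEN; proved from the leaf files `Fermat/Agent/S25/TWIST/G1..G6.lean`
(`Fermat/Agent/S25/TWIST/Plan.lean`).
-/
import Fermat.Agent.S25.AlgDefs
import Fermat.Agent.S25.TWIST.Plan

set_option autoImplicit false

universe u

namespace Fermat.Agent.S25

variable {k : Type u} [Field k] (𝒞 : CurveData k) [IsAlgClosed k]

/-- (E_pt) Point twists exist. -/
theorem exists_pointTwists : Nonempty (PointTwists 𝒞) :=
  TWIST.exists_pointTwists_of_leaves 𝒞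

end Fermat.Agent.S25
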